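/-
Program A (S29 / S42), helper7's descent route, leaf (G) (helper19): the abstract Gauss extension.

`K ⊆ E₁, E₂` fields, `Ω = Frac (E₁ ⊗[K] E₂)` a field, `V₁` a valuation subring of `E₁` containing
`K` with residue field `K`.  Then `Ω` carries a valuation subring `V` with `V ∩ E₁ = V₁`, residue
field `E₂` (a ring hom `res : V → E₂`, identity on `E₂`, kernel `𝔪_V`) and `Ω^× = E₁^× · V^×`.
Mathlib only.
-/
import Mathlib
import Fermat.Agent.S29.H19.ValTrans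

set_option autoImplicit false

open TensorProduct

noncomputable section

namespace Fermat.Agent.S29.H19

/-! ### Abstract core: the localisation of `R` at `ker ρ` inside a field -/

section Core

variable {R Ω E : Type*} [CommRing R] [Field Ω] [Field E] (Ψ : R →+* Ω) (ρ : R →+* E)

/-- Fractions `Ψ a / Ψ b` with `ρ b ≠ 0`. -/
def locCarrier : Set Ω := {ω | ∃ a b : R, ρ b ≠ 0 ∧ ω * Ψ b = Ψ a}

/-- The subring of fractions `Ψ a / Ψ b` with `ρ b ≠ 0`. -/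
def locSubring : Subring Ω where
  carrier := locCarrier Ψ ρ
  mul_mem' := by
    rintro ω ω' ⟨a, b, hb, h⟩ ⟨a', b', hb', h'⟩
    refine ⟨a * a', b * b', by rw [map_mul]; exact mul_ne_zero hb hb', ?_⟩
    rw [map_mul, map_mul, ← h, ← h']
    ring
  one_mem' := ⟨1, 1, by rw [map_one]; exact one_ne_zero, by rw [one_mul]⟩
  add_mem' := by
    rintro ω ω' ⟨a, b, hb, h⟩ ⟨a', b', hb', h'⟩
    refine ⟨a * b' + a' * b, b * b', by rw [map_mul]; exact mul_ne_zero hb hb', ?_⟩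
    rw [map_add, map_mul, map_mul, map_mul, ← h, ← h']
    ring
  zero_mem' := ⟨0, 1, by rw [map_one]; exact one_ne_zero, by rw [zero_mul, map_zero]⟩
  neg_mem' := by
    rintro ω ⟨a, b, hb, h⟩
    exact ⟨-a, b, hb, by rw [map_neg, ← h]; ring⟩

theorem mem_locSubring {ω : Ω} :
    ω ∈ locSubring Ψ ρ ↔ ∃ a b : R, ρ b ≠ 0 ∧ ω * Ψ b = Ψ a := Iff.rfl

/-- The residue of a fraction does not depend on the representation. -/
theorem loc_res_wd (hΨ : Function.Injective Ψ) {ω : Ω} {a b a' b' : R} (hb : ρ b ≠ 0)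
    (h : ω * Ψ b = Ψ a) (hb' : ρ b' ≠ 0) (h' : ω * Ψ b' = Ψ a') : ρ a / ρ b = ρ a' / ρ b' := by
  have h1 : Ψ (a * b') = Ψ (a' * b) := by
    rw [map_mul, map_mul, ← h, ← h']
    ring
  have h2 := congrArg ρ (hΨ h1)
  rw [map_mul, map_mul] at h2
  rw [div_eq_div_iff hb hb', h2]

theorem loc_exists_res (hΨ : Function.Injective Ψ) (ω : Ω) (hω : ω ∈ locSubring Ψ ρ) :
    ∃ e : E, ∀ a b : R, ρ b ≠ 0 → ω * Ψ b = Ψ a → e = ρ a / ρ b := by
  obtain ⟨a, b, hb, h⟩ := hω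
  exact ⟨ρ a / ρ b, fun a' b' hb' h' => loc_res_wd Ψ ρ hΨ hb h hb' h'⟩

/-- The residue map `Ψ a / Ψ b ↦ ρ a / ρ b`, as a function. -/
def locResFun (hΨ : Function.Injective Ψ) (ω : locSubring Ψ ρ) : E :=
  Classical.choose (loc_exists_res Ψ ρ hΨ ω ω.2)

theorem locResFun_eq (hΨ : Function.Injective Ψ) (ω : locSubring Ψ ρ) (a b : R) (hb : ρ b ≠ 0)
    (h : (ω : Ω) * Ψ b = Ψ a) : locResFun Ψ ρ hΨ ω = ρ a / ρ b :=
  Classical.choose_spec (loc_exists_res Ψ ρ hΨ ω ω.2) a b hb h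

/-- The residue map `Ψ a / Ψ b ↦ ρ a / ρ b`. -/
def locRes (hΨ : Function.Injective Ψ) : locSubring Ψ ρ →+* E where
  toFun := locResFun Ψ ρ hΨ
  map_one' := by
    rw [locResFun_eq Ψ ρ hΨ 1 1 1 (by rw [map_one]; exact one_ne_zero)
      (by rw [Subring.coe_one, one_mul]), map_one, div_one]
  map_mul' := by
    intro ω ω'
    obtain ⟨a, b, hb, h⟩ := ω.2
    obtain ⟨a', b', hb', h'⟩ := ω'.2
    rw [locResFun_eq Ψ ρ hΨ ω a b hb h, locResFun_eq Ψ ρ hΨ ω' a' b' hb' h',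
      locResFun_eq Ψ ρ hΨ (ω * ω') (a * a') (b * b')
        (by rw [map_mul]; exact mul_ne_zero hb hb')
        (by rw [map_mul, map_mul, ← h, ← h', Subring.coe_mul]; ring),
      map_mul, map_mul, mul_div_mul_comm]
  map_zero' := by
    rw [locResFun_eq Ψ ρ hΨ 0 0 1 (by rw [map_one]; exact one_ne_zero)
      (by rw [Subring.coe_zero, zero_mul, map_zero]), map_zero, zero_div]
  map_add' := by
    intro ω ω'
    obtain ⟨a, b, hb, h⟩ := ω.2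
    obtain ⟨a', b', hb', h'⟩ := ω'.2
    rw [locResFun_eq Ψ ρ hΨ ω a b hb h, locResFun_eq Ψ ρ hΨ ω' a' b' hb' h',
      locResFun_eq Ψ ρ hΨ (ω + ω') (a * b' + a' * b) (b * b')
        (by rw [map_mul]; exact mul_ne_zero hb hb')
        (by rw [map_add, map_mul, map_mul, map_mul, ← h, ← h', Subring.coe_add]; ring),
      map_add, map_mul, map_mul, map_mul, div_add_div _ _ hb hb', mul_comm (ρ a') (ρ b)]

theorem locRes_eq (hΨ : Function.Injective Ψ) (ω : locSubring Ψ ρ) (a b : R) (hb : ρ b ≠ 0)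
    (h : (ω : Ω) * Ψ b = Ψ a) : locRes Ψ ρ hΨ ω = ρ a / ρ b :=
  locResFun_eq Ψ ρ hΨ ω a b hb h

/-- An element of the subring with nonzero residue is invertible in it. -/
theorem inv_mem_locSubring_of_res_ne_zero (hΨ : Function.Injective Ψ) (ω : locSubring Ψ ρ)
    (h : locRes Ψ ρ hΨ ω ≠ 0) : (ω : Ω)⁻¹ ∈ locSubring Ψ ρ := by
  obtain ⟨a, b, hb, hab⟩ := ω.2
  rw [locRes_eq Ψ ρ hΨ ω a b hb hab] at h
  have ha : ρ a ≠ 0 := fun h0 => h (by rw [h0, zero_div])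
  have hω0 : (ω : Ω) ≠ 0 := by
    intro h0
    rw [h0, zero_mul] at hab
    have : a = 0 := hΨ (by rw [← hab, map_zero])
    exact ha (by rw [this, map_zero])
  refine ⟨b, a, ha, ?_⟩
  rw [← hab, ← mul_assoc, inv_mul_cancel₀ hω0, one_mul]

/-- An invertible element of the subring has nonzero residue. -/
theorem res_ne_zero_of_inv_mem (hΨ : Function.Injective Ψ) (ω : locSubring Ψ ρ)
    (hω0 : (ω : Ω) ≠ 0) (h : (ω : Ω)⁻¹ ∈ locSubring Ψ ρ) : locRes Ψ ρ hΨ ω ≠ 0 := by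
  intro h0
  have h1 : ω * ⟨(ω : Ω)⁻¹, h⟩ = 1 := Subtype.ext (mul_inv_cancel₀ hω0)
  have h2 := congrArg (locRes Ψ ρ hΨ) h1
  rw [map_mul, h0, zero_mul, map_one] at h2
  exact zero_ne_one h2

end Core

/-! ### The integral tensor product `V₁ ⊗[K] E₂` and its reduction -/

section Tensor

variable {K E₁ E₂ : Type*} [Field K] [Field E₁] [Field E₂] [Algebra K E₁] [Algebra K E₂]

/-- A valuation subring containing the constants, as a `K`-subalgebra. -/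
def valSubalgebra (V₁ : ValuationSubring E₁) (hK : ∀ c : K, algebraMap K E₁ c ∈ V₁) :
    Subalgebra K E₁ :=
  { V₁.toSubring.toSubsemiring with algebraMap_mem' := hK }

theorem mem_valSubalgebra (V₁ : ValuationSubring E₁) (hK : ∀ c : K, algebraMap K E₁ c ∈ V₁)
    (a : E₁) : a ∈ valSubalgebra V₁ hK ↔ a ∈ V₁ := Iff.rfl

variable (V₁ : ValuationSubring E₁) (hK : ∀ c : K, algebraMap K E₁ c ∈ V₁)

include hK in
/-- The residue constant of an element is unique. -/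
theorem residue_const_unique (a : E₁) (c c' : K)
    (h : a - algebraMap K E₁ c ∈ V₁.nonunits) (h' : a - algebraMap K E₁ c' ∈ V₁.nonunits) :
    c = c' := by
  by_contra hne
  have h1 : V₁.valuation (algebraMap K E₁ (c' - c)) = 1 :=
    val_algebraMap_eq_one V₁ hK _ (sub_ne_zero.mpr (Ne.symm hne))
  have h2 : algebraMap K E₁ (c' - c) = (a - algebraMap K E₁ c) - (a - algebraMap K E₁ c') := by
    rw [map_sub]; ring
  have h3 : V₁.valuation ((a - algebraMap K E₁ c) - (a - algebraMap K E₁ c')) < 1 :=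
    Valuation.map_sub_lt _ (V₁.mem_nonunits_iff.mp h) (V₁.mem_nonunits_iff.mp h')
  rw [← h2, h1] at h3
  exact lt_irrefl _ h3

variable (hres : ∀ a ∈ V₁, ∃ c : K, a - algebraMap K E₁ c ∈ V₁.nonunits)

/-- The residue constant, as a function. -/
def resFun (a : valSubalgebra V₁ hK) : K := Classical.choose (hres a a.2)

theorem resFun_spec (a : valSubalgebra V₁ hK) :
    (a : E₁) - algebraMap K E₁ (resFun V₁ hK hres a) ∈ V₁.nonunits :=
  Classical.choose_spec (hres a a.2)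

theorem resFun_eq (a : valSubalgebra V₁ hK) (c : K)
    (h : (a : E₁) - algebraMap K E₁ c ∈ V₁.nonunits) : resFun V₁ hK hres a = c :=
  residue_const_unique V₁ hK a _ _ (resFun_spec V₁ hK hres a) h

/-- The residue map `V₁ → K`, a `K`-algebra homomorphism. -/
def resConst : valSubalgebra V₁ hK →ₐ[K] K where
  toFun := resFun V₁ hK hres
  map_one' := resFun_eq V₁ hK hres 1 1 (by
    rw [V₁.mem_nonunits_iff]
    simp)
  map_mul' a b := resFun_eq V₁ hK hres (a * b) _ (by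
    have ha := V₁.mem_nonunits_iff.mp (resFun_spec V₁ hK hres a)
    have hb := V₁.mem_nonunits_iff.mp (resFun_spec V₁ hK hres b)
    have hb1 : V₁.valuation (b : E₁) ≤ 1 := (V₁.valuation_le_one_iff _).mpr b.2
    have hc1 : V₁.valuation (algebraMap K E₁ (resFun V₁ hK hres a)) ≤ 1 :=
      (V₁.valuation_le_one_iff _).mpr (hK _)
    have e : ((a * b : valSubalgebra V₁ hK) : E₁) -
        algebraMap K E₁ (resFun V₁ hK hres a * resFun V₁ hK hres b) =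
        ((a : E₁) - algebraMap K E₁ (resFun V₁ hK hres a)) * (b : E₁) +
        algebraMap K E₁ (resFun V₁ hK hres a) *
          ((b : E₁) - algebraMap K E₁ (resFun V₁ hK hres b)) := by
      rw [map_mul]
      push_cast
      ring
    rw [V₁.mem_nonunits_iff, e]
    refine Valuation.map_add_lt _ ?_ ?_
    · rw [map_mul]
      exact mul_lt_one_of_lt_of_le ha hb1
    · rw [map_mul, mul_comm]
      exact mul_lt_one_of_lt_of_le hb hc1)
  map_zero' := resFun_eq V₁ hK hres 0 0 (by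
    rw [V₁.mem_nonunits_iff]
    simp)
  map_add' a b := resFun_eq V₁ hK hres (a + b) _ (by
    have ha := V₁.mem_nonunits_iff.mp (resFun_spec V₁ hK hres a)
    have hb := V₁.mem_nonunits_iff.mp (resFun_spec V₁ hK hres b)
    have e : ((a + b : valSubalgebra V₁ hK) : E₁) -
        algebraMap K E₁ (resFun V₁ hK hres a + resFun V₁ hK hres b) =
        ((a : E₁) - algebraMap K E₁ (resFun V₁ hK hres a)) +
          ((b : E₁) - algebraMap K E₁ (resFun V₁ hK hres b)) := by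
      rw [map_add]
      push_cast
      ring
    rw [V₁.mem_nonunits_iff, e]
    exact Valuation.map_add_lt _ ha hb)
  commutes' c := resFun_eq V₁ hK hres (algebraMap K _ c) c (by
    rw [V₁.mem_nonunits_iff]
    simp)

theorem resConst_eq (a : valSubalgebra V₁ hK) (c : K)
    (h : (a : E₁) - algebraMap K E₁ c ∈ V₁.nonunits) : resConst V₁ hK hres a = c :=
  resFun_eq V₁ hK hres a c h

theorem resConst_spec (a : valSubalgebra V₁ hK) :
    (a : E₁) - algebraMap K E₁ (resConst V₁ hK hres a) ∈ V₁.nonunits :=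
  resFun_spec V₁ hK hres a

/-- The reduction `V₁ ⊗[K] E₂ → E₂`. -/
def rhoT : valSubalgebra V₁ hK ⊗[K] E₂ →ₐ[K] E₂ :=
  (Algebra.TensorProduct.lid K E₂).toAlgHom.comp
    (Algebra.TensorProduct.map (resConst V₁ hK hres) (AlgHom.id K E₂))

theorem rhoT_tmul (a : valSubalgebra V₁ hK) (e : E₂) :
    rhoT V₁ hK hres (a ⊗ₜ[K] e) = resConst V₁ hK hres a • e := by
  simp [rhoT]

/-- The inclusion `V₁ ⊗[K] E₂ → E₁ ⊗[K] E₂`. -/
def iotaT : valSubalgebra V₁ hK ⊗[K] E₂ →ₐ[K] E₁ ⊗[K] E₂ :=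
  Algebra.TensorProduct.map (valSubalgebra V₁ hK).val (AlgHom.id K E₂)

theorem iotaT_tmul (a : valSubalgebra V₁ hK) (e : E₂) :
    iotaT (E₂ := E₂) V₁ hK (a ⊗ₜ[K] e) = (a : E₁) ⊗ₜ[K] e := by
  simp [iotaT]

theorem iotaT_injective : Function.Injective (iotaT (E₂ := E₂) V₁ hK) := by
  have h := Module.Flat.rTensor_preserves_injective_linearMap (M := E₂)
    (valSubalgebra V₁ hK).val.toLinearMap Subtype.val_injective
  exact h

/-- Every nonzero element of `E₁ ⊗[K] E₂` is a nonzero constant of `E₁` times a primitive element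
of `V₁ ⊗[K] E₂`. -/
theorem exists_primitive (t : E₁ ⊗[K] E₂) (ht : t ≠ 0) :
    ∃ (a : E₁) (r : valSubalgebra V₁ hK ⊗[K] E₂), a ≠ 0 ∧ rhoT V₁ hK hres r ≠ 0 ∧
      t = (a ⊗ₜ[K] (1 : E₂)) * iotaT V₁ hK r := by
  classical
  let b := Module.Basis.ofVectorSpace K E₂
  let B := Algebra.TensorProduct.basis E₁ b
  obtain ⟨f, hf⟩ : ∃ f, f = B.repr t := ⟨_, rfl⟩
  have ht' : t = ∑ i ∈ f.support, (f i) ⊗ₜ[K] (b i) := by
    have h := B.linearCombination_repr t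
    rw [← hf, Finsupp.linearCombination_apply, Finsupp.sum] at h
    rw [← h]
    refine Finset.sum_congr rfl fun i _ => ?_
    rw [Algebra.TensorProduct.basis_apply, TensorProduct.smul_tmul', smul_eq_mul, mul_one]
  have hne : f.support.Nonempty := by
    rw [Finsupp.support_nonempty_iff]
    intro h0
    apply ht
    rw [hf] at h0
    exact B.repr.map_eq_zero_iff.mp h0
  obtain ⟨i₀, hi₀, hmax⟩ := Finset.exists_max_image f.support (fun i => V₁.valuation (f i)) hne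
  have ha0 : f i₀ ≠ 0 := Finsupp.mem_support_iff.mp hi₀
  have hv0 : V₁.valuation (f i₀) ≠ 0 := (Valuation.ne_zero_iff _).mpr ha0
  have hmem : ∀ i ∈ f.support, f i / f i₀ ∈ V₁ := by
    intro i hi
    rw [← V₁.valuation_le_one_iff, map_div₀]
    exact (div_le_one₀ (zero_lt_iff.mpr hv0)).mpr (hmax i hi)
  let c : Module.Basis.ofVectorSpaceIndex K E₂ → valSubalgebra V₁ hK := fun i =>
    if h : i ∈ f.support then ⟨f i / f i₀, hmem i h⟩ else 0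
  have hc : ∀ i ∈ f.support, ((c i : valSubalgebra V₁ hK) : E₁) = f i / f i₀ := by
    intro i hi
    simp only [c, dif_pos hi]
  refine ⟨f i₀, ∑ i ∈ f.support, (c i) ⊗ₜ[K] (b i), ha0, ?_, ?_⟩
  · rw [map_sum]
    simp only [rhoT_tmul]
    intro h0
    have h1 := linearIndependent_iff'.mp b.linearIndependent f.support
      (fun i => resConst V₁ hK hres (c i)) h0 i₀ hi₀
    have h2 : c i₀ = 1 := Subtype.ext (by rw [hc i₀ hi₀, div_self ha0]; rfl)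
    rw [h2, map_one] at h1
    exact one_ne_zero h1
  · rw [map_sum, Finset.mul_sum]
    conv_lhs => rw [ht']
    refine Finset.sum_congr rfl fun i hi => ?_
    rw [iotaT_tmul, Algebra.TensorProduct.tmul_mul_tmul, one_mul, hc i hi, mul_div_cancel₀ _ ha0]

end Tensor

/-! ### The Gauss extension -/

section Main

variable {K E₁ E₂ Ω : Type*} [Field K] [Field E₁] [Field E₂] [Field Ω] [Algebra K E₁]
  [Algebra K E₂]
  (V₁ : ValuationSubring E₁) (hK : ∀ c : K, algebraMap K E₁ c ∈ V₁)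
  (hres : ∀ a ∈ V₁, ∃ c : K, a - algebraMap K E₁ c ∈ V₁.nonunits)
  (φ : E₁ ⊗[K] E₂ →+* Ω)

/-- `V₁ ⊗[K] E₂ → Ω`. -/
def psiT : valSubalgebra V₁ hK ⊗[K] E₂ →+* Ω := φ.comp (iotaT V₁ hK).toRingHom

theorem psiT_apply (r : valSubalgebra V₁ hK ⊗[K] E₂) :
    psiT V₁ hK φ r = φ (iotaT V₁ hK r) := rfl

theorem psiT_injective (hφ : Function.Injective φ) : Function.Injective (psiT V₁ hK φ) :=
  hφ.comp (iotaT_injective V₁ hK)

theorem phi_tmul_one_mul (a a' : E₁) :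
    φ ((a * a') ⊗ₜ[K] (1 : E₂)) = φ (a ⊗ₜ[K] (1 : E₂)) * φ (a' ⊗ₜ[K] (1 : E₂)) := by
  rw [← map_mul, Algebra.TensorProduct.tmul_mul_tmul, mul_one]

theorem phi_tmul_one_ne_zero (a : E₁) (ha : a ≠ 0) : φ (a ⊗ₜ[K] (1 : E₂)) ≠ 0 := by
  intro h
  have h1 := phi_tmul_one_mul (E₂ := E₂) φ a a⁻¹
  rw [mul_inv_cancel₀ ha, h, zero_mul, ← Algebra.TensorProduct.one_def, map_one] at h1
  exact one_ne_zero h1

theorem phi_tmul_one_div (a a' : E₁) (ha' : a' ≠ 0) :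
    φ ((a / a') ⊗ₜ[K] (1 : E₂)) = φ (a ⊗ₜ[K] (1 : E₂)) / φ (a' ⊗ₜ[K] (1 : E₂)) := by
  rw [eq_div_iff (phi_tmul_one_ne_zero φ a' ha'), ← phi_tmul_one_mul, div_mul_cancel₀ _ ha']

include hres in
/-- The valuation-ring property of the Gauss extension. -/
theorem gauss_mem_or_inv_mem
    (hgen : ∀ ω : Ω, ∃ s t : E₁ ⊗[K] E₂, φ s ≠ 0 ∧ ω * φ s = φ t) (ω : Ω) :
    ω ∈ locSubring (psiT V₁ hK φ) (rhoT (E₂ := E₂) V₁ hK hres).toRingHom ∨
      ω⁻¹ ∈ locSubring (psiT V₁ hK φ) (rhoT (E₂ := E₂) V₁ hK hres).toRingHom := by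
  by_cases hω : ω = 0
  · left
    rw [hω]
    exact zero_mem _
  obtain ⟨s, t, hs, hst⟩ := hgen ω
  have hs0 : s ≠ 0 := fun h => hs (by rw [h, map_zero])
  have ht0 : t ≠ 0 := by
    intro h
    rw [h, map_zero] at hst
    exact (mul_ne_zero hω hs) hst
  obtain ⟨a, r, ha, hr, rfl⟩ := exists_primitive V₁ hK hres t ht0
  obtain ⟨a', r', ha', hr', rfl⟩ := exists_primitive V₁ hK hres s hs0
  rw [map_mul, map_mul] at hst
  have hA := phi_tmul_one_ne_zero (E₂ := E₂) φ a ha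
  have hA' := phi_tmul_one_ne_zero (E₂ := E₂) φ a' ha'
  have ha'' : a / a' ≠ 0 := div_ne_zero ha ha'
  rcases V₁.mem_or_inv_mem (a / a') with h | h
  · left
    refine ⟨((⟨a / a', h⟩ : valSubalgebra V₁ hK) ⊗ₜ[K] (1 : E₂)) * r, r', hr', ?_⟩
    rw [psiT_apply, psiT_apply, map_mul, map_mul, iotaT_tmul]
    show ω * φ (iotaT V₁ hK r') = φ ((a / a') ⊗ₜ[K] (1 : E₂)) * φ (iotaT V₁ hK r)
    rw [phi_tmul_one_div φ a a' ha', div_mul_eq_mul_div, eq_div_iff hA']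
    linear_combination hst
  · right
    refine ⟨((⟨(a / a')⁻¹, h⟩ : valSubalgebra V₁ hK) ⊗ₜ[K] (1 : E₂)) * r', r, hr, ?_⟩
    rw [psiT_apply, psiT_apply, map_mul, map_mul, iotaT_tmul]
    show ω⁻¹ * φ (iotaT V₁ hK r) = φ ((a / a')⁻¹ ⊗ₜ[K] (1 : E₂)) * φ (iotaT V₁ hK r')
    rw [inv_div, phi_tmul_one_div φ a' a ha, div_mul_eq_mul_div, eq_div_iff hA]
    have h1 : φ (a' ⊗ₜ[K] (1 : E₂)) * φ (iotaT V₁ hK r') =
        ω⁻¹ * (φ (a ⊗ₜ[K] (1 : E₂)) * φ (iotaT V₁ hK r)) := by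
      rw [← hst, ← mul_assoc, inv_mul_cancel₀ hω, one_mul]
    rw [h1]
    ring

variable (hgen : ∀ ω : Ω, ∃ s t : E₁ ⊗[K] E₂, φ s ≠ 0 ∧ ω * φ s = φ t)

/-- **The Gauss extension** of `V₁` to `Ω = Frac (E₁ ⊗[K] E₂)`: the fractions `φ a / φ b` with
`a, b ∈ V₁ ⊗[K] E₂` and `b` primitive (nonzero reduction in `E₂`). -/
def gaussExt : ValuationSubring Ω :=
  { locSubring (psiT V₁ hK φ) (rhoT (E₂ := E₂) V₁ hK hres).toRingHom with
    mem_or_inv_mem' := gauss_mem_or_inv_mem V₁ hK hres φ hgen }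

theorem mem_gaussExt_iff (ω : Ω) : ω ∈ gaussExt V₁ hK hres φ hgen ↔
    ∃ a b : valSubalgebra V₁ hK ⊗[K] E₂, rhoT V₁ hK hres b ≠ 0 ∧
      ω * φ (iotaT V₁ hK b) = φ (iotaT V₁ hK a) := Iff.rfl

variable (hφ : Function.Injective φ)

/-- The residue map of the Gauss extension, with values in `E₂`. -/
def gaussRes : ↥(gaussExt V₁ hK hres φ hgen) →+* E₂ where
  toFun y := locRes (psiT V₁ hK φ) (rhoT (E₂ := E₂) V₁ hK hres).toRingHom
    (psiT_injective V₁ hK φ hφ) ⟨y.1, y.2⟩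
  map_one' := map_one (locRes (psiT V₁ hK φ) (rhoT (E₂ := E₂) V₁ hK hres).toRingHom
    (psiT_injective V₁ hK φ hφ))
  map_mul' x y := map_mul (locRes (psiT V₁ hK φ) (rhoT (E₂ := E₂) V₁ hK hres).toRingHom
    (psiT_injective V₁ hK φ hφ)) ⟨x.1, x.2⟩ ⟨y.1, y.2⟩
  map_zero' := map_zero (locRes (psiT V₁ hK φ) (rhoT (E₂ := E₂) V₁ hK hres).toRingHom
    (psiT_injective V₁ hK φ hφ))
  map_add' x y := map_add (locRes (psiT V₁ hK φ) (rhoT (E₂ := E₂) V₁ hK hres).toRingHom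
    (psiT_injective V₁ hK φ hφ)) ⟨x.1, x.2⟩ ⟨y.1, y.2⟩

theorem gaussRes_eq (y : ↥(gaussExt V₁ hK hres φ hgen)) (a b : valSubalgebra V₁ hK ⊗[K] E₂)
    (hb : rhoT V₁ hK hres b ≠ 0) (h : (y : Ω) * φ (iotaT V₁ hK b) = φ (iotaT V₁ hK a)) :
    gaussRes V₁ hK hres φ hgen hφ y = rhoT V₁ hK hres a / rhoT V₁ hK hres b :=
  locRes_eq (psiT V₁ hK φ) (rhoT (E₂ := E₂) V₁ hK hres).toRingHom
    (psiT_injective V₁ hK φ hφ) ⟨y.1, y.2⟩ a b hb h

theorem iotaT_mem_gaussExt (r : valSubalgebra V₁ hK ⊗[K] E₂) :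
    φ (iotaT V₁ hK r) ∈ gaussExt V₁ hK hres φ hgen :=
  ⟨r, 1, by rw [map_one]; exact one_ne_zero, by rw [map_one, mul_one]; rfl⟩

theorem gaussRes_iotaT (r : valSubalgebra V₁ hK ⊗[K] E₂) :
    gaussRes V₁ hK hres φ hgen hφ ⟨φ (iotaT V₁ hK r), iotaT_mem_gaussExt V₁ hK hres φ hgen r⟩ =
      rhoT V₁ hK hres r := by
  rw [gaussRes_eq V₁ hK hres φ hgen hφ _ r 1 (by rw [map_one]; exact one_ne_zero)
    (by rw [map_one, map_one, mul_one]), map_one, div_one]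

/-- The kernel of the residue map is the maximal ideal. -/
theorem gaussRes_eq_zero_iff (y : ↥(gaussExt V₁ hK hres φ hgen)) :
    gaussRes V₁ hK hres φ hgen hφ y = 0 ↔ (y : Ω) ∈ (gaussExt V₁ hK hres φ hgen).nonunits := by
  rw [ValuationSubring.mem_nonunits_iff_or]
  constructor
  · intro h0
    by_cases hy : (y : Ω) = 0
    · exact Or.inl hy
    · refine Or.inr fun hinv => ?_
      exact res_ne_zero_of_inv_mem (psiT V₁ hK φ) (rhoT (E₂ := E₂) V₁ hK hres).toRingHom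
        (psiT_injective V₁ hK φ hφ) ⟨y.1, y.2⟩ hy hinv h0
  · rintro (hy | hinv)
    · have h1 : y = 0 := Subtype.ext hy
      rw [h1, map_zero]
    · by_contra h0
      exact hinv (inv_mem_locSubring_of_res_ne_zero (psiT V₁ hK φ)
        (rhoT (E₂ := E₂) V₁ hK hres).toRingHom (psiT_injective V₁ hK φ hφ) ⟨y.1, y.2⟩ h0)

theorem tmul_mem_gaussExt (a : E₁) (ha : a ∈ V₁) (e : E₂) :
    φ (a ⊗ₜ[K] e) ∈ gaussExt V₁ hK hres φ hgen := by
  have h := iotaT_mem_gaussExt V₁ hK hres φ hgen ((⟨a, ha⟩ : valSubalgebra V₁ hK) ⊗ₜ[K] e)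
  rwa [iotaT_tmul] at h

/-- `res (a ⊗ e) = (a mod 𝔪₁) • e`. -/
theorem gaussRes_tmul (a : E₁) (ha : a ∈ V₁) (c : K)
    (hc : a - algebraMap K E₁ c ∈ V₁.nonunits) (e : E₂) :
    gaussRes V₁ hK hres φ hgen hφ ⟨φ (a ⊗ₜ[K] e), tmul_mem_gaussExt V₁ hK hres φ hgen a ha e⟩ =
      c • e := by
  have h1 := gaussRes_iotaT V₁ hK hres φ hgen hφ ((⟨a, ha⟩ : valSubalgebra V₁ hK) ⊗ₜ[K] e)
  rw [rhoT_tmul, resConst_eq V₁ hK hres ⟨a, ha⟩ c hc] at h1
  rw [← h1]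
  congr 1

include hφ in
/-- `V ∩ E₁ = V₁`. -/
theorem tmul_one_mem_gaussExt_iff (a : E₁) :
    φ (a ⊗ₜ[K] (1 : E₂)) ∈ gaussExt V₁ hK hres φ hgen ↔ a ∈ V₁ := by
  constructor
  · intro h
    by_contra ha
    have ha0 : a ≠ 0 := fun h0 => ha (h0 ▸ zero_mem _)
    have hinv : a⁻¹ ∈ V₁.nonunits := by
      rw [ValuationSubring.mem_nonunits_iff_or]
      right
      rwa [inv_inv]
    have hinvmem : a⁻¹ ∈ V₁ := V₁.nonunits_subset hinv
    have h1 := gaussRes_tmul V₁ hK hres φ hgen hφ a⁻¹ hinvmem 0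
      (by rw [map_zero, sub_zero]; exact hinv) 1
    rw [zero_smul] at h1
    have h2 : (⟨φ (a ⊗ₜ[K] (1 : E₂)), h⟩ : ↥(gaussExt V₁ hK hres φ hgen)) *
        ⟨φ (a⁻¹ ⊗ₜ[K] (1 : E₂)), tmul_mem_gaussExt V₁ hK hres φ hgen a⁻¹ hinvmem 1⟩ = 1 := by
      refine Subtype.ext ?_
      show φ (a ⊗ₜ[K] (1 : E₂)) * φ (a⁻¹ ⊗ₜ[K] (1 : E₂)) = 1
      rw [← phi_tmul_one_mul, mul_inv_cancel₀ ha0, ← Algebra.TensorProduct.one_def, map_one]
    have h3 := congrArg (gaussRes V₁ hK hres φ hgen hφ) h2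
    rw [map_mul, h1, mul_zero, map_one] at h3
    exact zero_ne_one h3
  · intro ha
    exact tmul_mem_gaussExt V₁ hK hres φ hgen a ha 1

include hφ in
/-- `Ω^× = E₁^× · V^×`. -/
theorem exists_scale_gaussExt (ω : Ω) (hω : ω ≠ 0) :
    ∃ a : E₁, a ≠ 0 ∧ ω * φ (a ⊗ₜ[K] (1 : E₂)) ∈ gaussExt V₁ hK hres φ hgen ∧
      (ω * φ (a ⊗ₜ[K] (1 : E₂)))⁻¹ ∈ gaussExt V₁ hK hres φ hgen := by
  obtain ⟨s, t, hs, hst⟩ := hgen ω
  have hs0 : s ≠ 0 := fun h => hs (by rw [h, map_zero])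
  have ht0 : t ≠ 0 := by
    intro h
    rw [h, map_zero] at hst
    exact (mul_ne_zero hω hs) hst
  obtain ⟨a, r, ha, hr, rfl⟩ := exists_primitive V₁ hK hres t ht0
  obtain ⟨a', r', ha', hr', rfl⟩ := exists_primitive V₁ hK hres s hs0
  rw [map_mul, map_mul] at hst
  have hA := phi_tmul_one_ne_zero (E₂ := E₂) φ a ha
  have hA' := phi_tmul_one_ne_zero (E₂ := E₂) φ a' ha'
  have hP : φ (iotaT V₁ hK r) ≠ 0 := by
    intro h0
    have : r = 0 := psiT_injective V₁ hK φ hφ (by rw [psiT_apply, h0, map_zero])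
    exact hr (by rw [this, map_zero])
  have hP' : φ (iotaT V₁ hK r') ≠ 0 := by
    intro h0
    have : r' = 0 := psiT_injective V₁ hK φ hφ (by rw [psiT_apply, h0, map_zero])
    exact hr' (by rw [this, map_zero])
  have key : ω * φ ((a' / a) ⊗ₜ[K] (1 : E₂)) * φ (iotaT V₁ hK r') = φ (iotaT V₁ hK r) := by
    rw [phi_tmul_one_div φ a' a ha]
    field_simp
    linear_combination hst
  refine ⟨a' / a, div_ne_zero ha' ha, ⟨r, r', hr', key⟩, ⟨r', r, hr, ?_⟩⟩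
  show (ω * φ ((a' / a) ⊗ₜ[K] (1 : E₂)))⁻¹ * φ (iotaT V₁ hK r) = φ (iotaT V₁ hK r')
  rw [← key]
  have h1 : ω * φ ((a' / a) ⊗ₜ[K] (1 : E₂)) ≠ 0 :=
    mul_ne_zero hω (phi_tmul_one_ne_zero φ _ (div_ne_zero ha' ha))
  rw [← mul_assoc, inv_mul_cancel₀ h1, one_mul]

/-- The residue of a sum `∑ aᵢ ⊗ eᵢ` with integral coefficients. -/
theorem gaussRes_sum_tmul {ι : Type*} [Fintype ι] (a : ι → E₁) (ha : ∀ i, a i ∈ V₁) (e : ι → E₂)
    (h : φ (∑ i, a i ⊗ₜ[K] e i) ∈ gaussExt V₁ hK hres φ hgen) :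
    gaussRes V₁ hK hres φ hgen hφ ⟨_, h⟩ =
      ∑ i, resConst V₁ hK hres ⟨a i, ha i⟩ • e i := by
  have hx' : iotaT V₁ hK (∑ i, (⟨a i, ha i⟩ : valSubalgebra V₁ hK) ⊗ₜ[K] e i) =
      ∑ i, a i ⊗ₜ[K] e i := by
    rw [map_sum]
    exact Finset.sum_congr rfl fun i _ => iotaT_tmul V₁ hK _ _
  have hx : φ (∑ i, a i ⊗ₜ[K] e i) =
      φ (iotaT V₁ hK (∑ i, (⟨a i, ha i⟩ : valSubalgebra V₁ hK) ⊗ₜ[K] e i)) :=
    congrArg φ hx'.symm
  have h2 : (⟨_, h⟩ : ↥(gaussExt V₁ hK hres φ hgen)) =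
      ⟨_, iotaT_mem_gaussExt V₁ hK hres φ hgen
        (∑ i, (⟨a i, ha i⟩ : valSubalgebra V₁ hK) ⊗ₜ[K] e i)⟩ := Subtype.ext hx
  rw [h2, gaussRes_iotaT, map_sum]
  simp only [rhoT_tmul]

include hφ in
/-- **Gauss property**: for a `K`-linearly independent family `e` of `E₂`,
`∑ aᵢ ⊗ eᵢ ∈ V ↔ ∀ i, aᵢ ∈ V₁`. -/
theorem sum_tmul_mem_gaussExt_iff {ι : Type*} [Fintype ι] (a : ι → E₁) (e : ι → E₂)
    (he : LinearIndependent K e) :
    φ (∑ i, a i ⊗ₜ[K] e i) ∈ gaussExt V₁ hK hres φ hgen ↔ ∀ i, a i ∈ V₁ := by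
  classical
  constructor
  · intro h
    by_contra hcon
    push Not at hcon
    obtain ⟨j, hj⟩ := hcon
    obtain ⟨i₀, -, hmax⟩ := Finset.exists_max_image Finset.univ (fun i => V₁.valuation (a i))
      ⟨j, Finset.mem_univ _⟩
    have hv : 1 < V₁.valuation (a i₀) :=
      lt_of_lt_of_le (not_le.mp (mt (V₁.valuation_le_one_iff _).mp hj)) (hmax j (Finset.mem_univ _))
    have hv0 : V₁.valuation (a i₀) ≠ 0 := fun h0 => by rw [h0] at hv; exact not_lt_zero hv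
    have ha0 : a i₀ ≠ 0 := (Valuation.ne_zero_iff _).mp hv0
    have hmem : ∀ i, a i / a i₀ ∈ V₁ := by
      intro i
      rw [← V₁.valuation_le_one_iff, map_div₀]
      exact (div_le_one₀ (zero_lt_iff.mpr hv0)).mpr (hmax i (Finset.mem_univ _))
    set r : valSubalgebra V₁ hK ⊗[K] E₂ :=
      ∑ i, (⟨a i / a i₀, hmem i⟩ : valSubalgebra V₁ hK) ⊗ₜ[K] e i with hr
    have hρ : rhoT V₁ hK hres r ≠ 0 := by
      rw [hr, map_sum]
      simp only [rhoT_tmul]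
      intro h0
      have h1 := Fintype.linearIndependent_iff.mp he
        (fun i => resConst V₁ hK hres ⟨a i / a i₀, hmem i⟩) h0 i₀
      have h2 : (⟨a i₀ / a i₀, hmem i₀⟩ : valSubalgebra V₁ hK) = 1 :=
        Subtype.ext (div_self ha0)
      rw [h2, map_one] at h1
      exact one_ne_zero h1
    have ht : (∑ i, a i ⊗ₜ[K] e i) = (a i₀ ⊗ₜ[K] (1 : E₂)) * iotaT V₁ hK r := by
      rw [hr, map_sum, Finset.mul_sum]
      refine Finset.sum_congr rfl fun i _ => ?_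
      rw [iotaT_tmul, Algebra.TensorProduct.tmul_mul_tmul, one_mul, mul_div_cancel₀ _ ha0]
    -- `Ψ r` is a unit of the Gauss extension
    have hmemr := iotaT_mem_gaussExt V₁ hK hres φ hgen r
    have hresr : gaussRes V₁ hK hres φ hgen hφ ⟨_, hmemr⟩ ≠ 0 := by
      rw [gaussRes_iotaT]
      exact hρ
    have hinv : (φ (iotaT V₁ hK r))⁻¹ ∈ gaussExt V₁ hK hres φ hgen :=
      inv_mem_locSubring_of_res_ne_zero (psiT V₁ hK φ) (rhoT (E₂ := E₂) V₁ hK hres).toRingHom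
        (psiT_injective V₁ hK φ hφ) ⟨_, hmemr⟩ hresr
    have hP : φ (iotaT V₁ hK r) ≠ 0 := by
      intro h0
      have : r = 0 := psiT_injective V₁ hK φ hφ (by rw [psiT_apply, h0, map_zero])
      exact hρ (by rw [this, map_zero])
    have h3 : φ (a i₀ ⊗ₜ[K] (1 : E₂)) ∈ gaussExt V₁ hK hres φ hgen := by
      have h4 : φ (a i₀ ⊗ₜ[K] (1 : E₂)) = φ (∑ i, a i ⊗ₜ[K] e i) * (φ (iotaT V₁ hK r))⁻¹ := by
        rw [ht, map_mul, mul_assoc, mul_inv_cancel₀ hP, mul_one]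
      rw [h4]
      exact mul_mem h hinv
    have h5 := (tmul_one_mem_gaussExt_iff V₁ hK hres φ hgen hφ (a i₀)).mp h3
    exact absurd ((V₁.valuation_le_one_iff _).mpr h5) (not_le.mpr hv)
  · intro ha
    have h1 := iotaT_mem_gaussExt V₁ hK hres φ hgen
      (∑ i, (⟨a i, ha i⟩ : valSubalgebra V₁ hK) ⊗ₜ[K] e i)
    rw [map_sum] at h1
    simp only [iotaT_tmul] at h1
    exact h1

include hφ in
/-- **Gauss property**, maximal ideals: for a `K`-linearly independent family `e` of `E₂`,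
`∑ aᵢ ⊗ eᵢ ∈ 𝔪_V ↔ ∀ i, aᵢ ∈ 𝔪₁`. -/
theorem sum_tmul_mem_nonunits_gaussExt_iff {ι : Type*} [Fintype ι] (a : ι → E₁) (e : ι → E₂)
    (he : LinearIndependent K e) :
    φ (∑ i, a i ⊗ₜ[K] e i) ∈ (gaussExt V₁ hK hres φ hgen).nonunits ↔
      ∀ i, a i ∈ V₁.nonunits := by
  constructor
  · intro h
    have hmem := (gaussExt V₁ hK hres φ hgen).nonunits_subset h
    have ha := (sum_tmul_mem_gaussExt_iff V₁ hK hres φ hgen hφ a e he).mp hmem
    have h0 := (gaussRes_eq_zero_iff V₁ hK hres φ hgen hφ ⟨_, hmem⟩).mpr h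
    rw [gaussRes_sum_tmul V₁ hK hres φ hgen hφ a ha e hmem] at h0
    intro i
    have h1 := Fintype.linearIndependent_iff.mp he
      (fun i => resConst V₁ hK hres ⟨a i, ha i⟩) h0 i
    have h2 := resConst_spec V₁ hK hres ⟨a i, ha i⟩
    rw [h1, map_zero, sub_zero] at h2
    exact h2
  · intro ha
    have ha' : ∀ i, a i ∈ V₁ := fun i => V₁.nonunits_subset (ha i)
    have hmem := (sum_tmul_mem_gaussExt_iff V₁ hK hres φ hgen hφ a e he).mpr ha'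
    refine (gaussRes_eq_zero_iff V₁ hK hres φ hgen hφ ⟨_, hmem⟩).mp ?_
    rw [gaussRes_sum_tmul V₁ hK hres φ hgen hφ a ha' e hmem]
    refine Finset.sum_eq_zero fun i _ => ?_
    rw [resConst_eq V₁ hK hres ⟨a i, ha' i⟩ 0 (by rw [map_zero, sub_zero]; exact ha i), zero_smul]

include hK hres hgen hφ in
/-- **Leaf (G)**, ring-hom form. -/
theorem exists_gaussExt_of_ringHom :
    ∃ (V : ValuationSubring Ω) (res : ↥V →+* E₂),
      (∀ a : E₁, φ (a ⊗ₜ[K] (1 : E₂)) ∈ V ↔ a ∈ V₁) ∧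
      (∀ a : E₁, a ∈ V₁ → ∀ c : K, a - algebraMap K E₁ c ∈ V₁.nonunits → ∀ e : E₂,
          ∃ h : φ (a ⊗ₜ[K] e) ∈ V, res ⟨_, h⟩ = c • e) ∧
      (∀ y : ↥V, res y = 0 ↔ (y : Ω) ∈ V.nonunits) ∧
      (∀ ω : Ω, ω ≠ 0 → ∃ a : E₁, a ≠ 0 ∧ ω * φ (a ⊗ₜ[K] (1 : E₂)) ∈ V ∧
          (ω * φ (a ⊗ₜ[K] (1 : E₂)))⁻¹ ∈ V) ∧
      (∀ (n : ℕ) (a : Fin n → E₁) (e : Fin n → E₂), LinearIndependent K e →
          (φ (∑ i, a i ⊗ₜ[K] e i) ∈ V ↔ ∀ i, a i ∈ V₁) ∧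
          (φ (∑ i, a i ⊗ₜ[K] e i) ∈ V.nonunits ↔ ∀ i, a i ∈ V₁.nonunits)) :=
  ⟨gaussExt V₁ hK hres φ hgen, gaussRes V₁ hK hres φ hgen hφ,
    tmul_one_mem_gaussExt_iff V₁ hK hres φ hgen hφ,
    fun a ha c hc e => ⟨tmul_mem_gaussExt V₁ hK hres φ hgen a ha e,
      gaussRes_tmul V₁ hK hres φ hgen hφ a ha c hc e⟩,
    gaussRes_eq_zero_iff V₁ hK hres φ hgen hφ,
    exists_scale_gaussExt V₁ hK hres φ hgen hφ,
    fun _ a e he => ⟨sum_tmul_mem_gaussExt_iff V₁ hK hres φ hgen hφ a e he,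
      sum_tmul_mem_nonunits_gaussExt_iff V₁ hK hres φ hgen hφ a e he⟩⟩

end Main

section Frac

variable {K E₁ E₂ Ω : Type*} [Field K] [Field E₁] [Field E₂] [Field Ω] [Algebra K E₁]
  [Algebra K E₂] [Algebra (E₁ ⊗[K] E₂) Ω] [IsFractionRing (E₁ ⊗[K] E₂) Ω]

/-- **Leaf (G)**: the Gauss extension of a valuation subring `V₁ ⊇ K` of `E₁` with residue field
`K` to `Ω = Frac (E₁ ⊗[K] E₂)`. -/
theorem exists_gaussExt (V₁ : ValuationSubring E₁) (hK : ∀ c : K, algebraMap K E₁ c ∈ V₁)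
    (hres : ∀ a ∈ V₁, ∃ c : K, a - algebraMap K E₁ c ∈ V₁.nonunits) :
    ∃ (V : ValuationSubring Ω) (res : ↥V →+* E₂),
      (∀ a : E₁, algebraMap (E₁ ⊗[K] E₂) Ω (a ⊗ₜ[K] (1 : E₂)) ∈ V ↔ a ∈ V₁) ∧
      (∀ a : E₁, a ∈ V₁ → ∀ c : K, a - algebraMap K E₁ c ∈ V₁.nonunits → ∀ e : E₂,
          ∃ h : algebraMap (E₁ ⊗[K] E₂) Ω (a ⊗ₜ[K] e) ∈ V, res ⟨_, h⟩ = c • e) ∧
      (∀ y : ↥V, res y = 0 ↔ (y : Ω) ∈ V.nonunits) ∧
      (∀ ω : Ω, ω ≠ 0 → ∃ a : E₁, a ≠ 0 ∧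
          ω * algebraMap (E₁ ⊗[K] E₂) Ω (a ⊗ₜ[K] (1 : E₂)) ∈ V ∧
          (ω * algebraMap (E₁ ⊗[K] E₂) Ω (a ⊗ₜ[K] (1 : E₂)))⁻¹ ∈ V) ∧
      (∀ (n : ℕ) (a : Fin n → E₁) (e : Fin n → E₂), LinearIndependent K e →
          (algebraMap (E₁ ⊗[K] E₂) Ω (∑ i, a i ⊗ₜ[K] e i) ∈ V ↔ ∀ i, a i ∈ V₁) ∧
          (algebraMap (E₁ ⊗[K] E₂) Ω (∑ i, a i ⊗ₜ[K] e i) ∈ V.nonunits ↔
            ∀ i, a i ∈ V₁.nonunits)) := by
  refine exists_gaussExt_of_ringHom V₁ hK hres (algebraMap (E₁ ⊗[K] E₂) Ω) ?_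
    (IsFractionRing.injective (E₁ ⊗[K] E₂) Ω)
  intro ω
  obtain ⟨x, y, hy, hxy⟩ := IsFractionRing.div_surjective (E₁ ⊗[K] E₂) (K := Ω) ω
  have hy0 : algebraMap (E₁ ⊗[K] E₂) Ω y ≠ 0 := by
    intro h0
    have := (IsFractionRing.injective (E₁ ⊗[K] E₂) Ω) (h0.trans (map_zero _).symm)
    exact nonZeroDivisors.ne_zero hy this
  exact ⟨y, x, hy0, by rw [← hxy, div_mul_cancel₀ _ hy0]⟩

end Frac

end Fermat.Agent.S29.H19
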