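/-
Program A (S29 / S42), descent route DESC, leaf (G1) (helper19): the Gauss valuation ring of the
constant family.

`k ⊆ L` fields, `A` a valuation subring of `L` containing `k` with residue field `k`; `Fk` a field
over `k`, `FL = Frac (L ⊗[k] Fk)`.  Then `FL` carries the Gauss valuation ring `O` with
`O ∩ L = A`, residue field `Fk`, `FL^× = L^× · O^×`, the sup-norm (Gauss) property for
`k`-independent families of `Fk`, and `FL = L(Fk)`.  These are the fields `const_mem`, `gauss`,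
`scale`, `gen` of helper74's `ConstFamily` (report #1951).

* `exists_gauss_const`   : abstract form (any `φ : L ⊗[k] Fk →+* FL` injective with fractions);
* `exists_gauss_laurent` : the Prelude's `laurentBaseChange`, on helper11's `LinDisj`.
-/
import Mathlib
import Fermat.Agent.S29.H19.GaussExt
import Fermat.Agent.S42.H11.LinDisj

set_option autoImplicit false

open TensorProduct

noncomputable section

namespace Fermat.Agent.S29.H19

section Abstract

variable {k L Fk FL : Type*} [Field k] [Field L] [Field Fk] [Field FL] [Algebra k L]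
  [Algebra k Fk] [Algebra L FL]

/-- Transport of a residue along an equality of elements. -/
theorem res_congr {E : Type*} (O : ValuationSubring FL) (res : ↥O → E) {x y : FL} (hxy : x = y)
    (hx : x ∈ O) (hy : y ∈ O) : res ⟨y, hy⟩ = res ⟨x, hx⟩ := by
  subst hxy
  rfl

/-- **(G1), abstract form.** -/
theorem exists_gauss_const (i₂ : Fk →+* FL) (φ : L ⊗[k] Fk →+* FL) (hφ : Function.Injective φ)
    (hgen : ∀ ω : FL, ∃ s t : L ⊗[k] Fk, φ s ≠ 0 ∧ ω * φ s = φ t)
    (hcompat : ∀ (a : L) (e : Fk), φ (a ⊗ₜ[k] e) = algebraMap L FL a * i₂ e)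
    (A : ValuationSubring L) (hk : ∀ c : k, algebraMap k L c ∈ A)
    (hres : ∀ a ∈ A, ∃ c : k, a - algebraMap k L c ∈ A.nonunits) :
    ∃ (O : ValuationSubring FL) (res : ↥O →+* Fk),
      (∀ a : L, algebraMap L FL a ∈ O ↔ a ∈ A) ∧
      (∀ e : Fk, ∃ h : i₂ e ∈ O, res ⟨_, h⟩ = e) ∧
      (∀ a : L, a ∈ A → ∀ c : k, a - algebraMap k L c ∈ A.nonunits →
        ∃ h : algebraMap L FL a ∈ O, res ⟨_, h⟩ = algebraMap k Fk c) ∧
      (∀ y : ↥O, res y = 0 ↔ (y : FL) ∈ O.nonunits) ∧
      (∀ f : FL, f ≠ 0 → ∃ c : L, c ≠ 0 ∧ algebraMap L FL c * f ∈ O ∧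
        (algebraMap L FL c * f)⁻¹ ∈ O) ∧
      (∀ (n : ℕ) (a : Fin n → L) (e : Fin n → Fk), LinearIndependent k e →
        ((∑ i, algebraMap L FL (a i) * i₂ (e i)) ∈ O ↔ ∀ i, a i ∈ A) ∧
        ((∑ i, algebraMap L FL (a i) * i₂ (e i)) ∈ O.nonunits ↔ ∀ i, a i ∈ A.nonunits)) ∧
      IntermediateField.adjoin L (Set.range i₂) = ⊤ := by
  obtain ⟨O, res, h1, h2, h3, h4, h5⟩ := exists_gaussExt_of_ringHom A hk hres φ hgen hφ
  have hφ1 : ∀ a : L, φ (a ⊗ₜ[k] (1 : Fk)) = algebraMap L FL a := fun a => by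
    rw [hcompat, map_one, mul_one]
  have hφ2 : ∀ e : Fk, φ ((1 : L) ⊗ₜ[k] e) = i₂ e := fun e => by
    rw [hcompat, map_one, one_mul]
  have hone : (1 : L) - algebraMap k L 1 ∈ A.nonunits := by
    rw [map_one, sub_self, A.mem_nonunits_iff, map_zero]
    exact zero_lt_one
  refine ⟨O, res, fun a => ?_, fun e => ?_, fun a ha c hc => ?_, h3, fun f hf => ?_,
    fun n a e he => ?_, ?_⟩
  · rw [← hφ1 a]
    exact h1 a
  · obtain ⟨h, hr⟩ := h2 1 A.one_mem 1 hone e
    rw [one_smul] at hr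
    exact ⟨hφ2 e ▸ h, (res_congr O res (hφ2 e) h _).trans hr⟩
  · obtain ⟨h, hr⟩ := h2 a ha c hc 1
    refine ⟨hφ1 a ▸ h, (res_congr O res (hφ1 a) h _).trans ?_⟩
    rw [hr, Algebra.algebraMap_eq_smul_one]
  · obtain ⟨c, hc, hm, hi⟩ := h4 f hf
    rw [hφ1 c, mul_comm] at hm hi
    exact ⟨c, hc, hm, hi⟩
  · have hsum : φ (∑ i, a i ⊗ₜ[k] e i) = ∑ i, algebraMap L FL (a i) * i₂ (e i) := by
      rw [map_sum]
      exact Finset.sum_congr rfl fun i _ => hcompat _ _
    rw [← hsum]
    exact h5 n a e he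
  · rw [eq_top_iff]
    intro ω _
    have hmem : ∀ t : L ⊗[k] Fk, φ t ∈ IntermediateField.adjoin L (Set.range i₂) := by
      intro t
      induction t using TensorProduct.induction_on with
      | zero => rw [map_zero]; exact zero_mem _
      | tmul a e =>
        rw [hcompat]
        exact mul_mem (IntermediateField.algebraMap_mem _ a)
          (IntermediateField.subset_adjoin L _ ⟨e, rfl⟩)
      | add x y hx hy => rw [map_add]; exact add_mem hx hy
    obtain ⟨s, t, hs, hst⟩ := hgen ω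
    have hω : ω = φ t / φ s := by rw [← hst, mul_div_cancel_right₀ _ hs]
    rw [hω]
    exact div_mem (hmem t) (hmem s)

end Abstract

section Laurent

open ModularCurve Fermat.Agent.S42.H11

variable (k K : Type*) [Field k] [Field K] [Algebra ℚ k] [Algebra ℚ K] [Algebra k K]
  (F₀ : IntermediateField ℚ (LaurentSeries ℚ))

/-- **(G1) for the Prelude's Laurent-series base change**: the Gauss valuation ring of
`F_K = laurentBaseChange K F₀` attached to a valuation subring `A ⊇ k` of `K` with residue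
field `k`; its residue field is `F_k = laurentBaseChange k F₀` (embedded by `baseIncl`). -/
theorem exists_gauss_laurent (A : ValuationSubring K) (hk : ∀ c : k, algebraMap k K c ∈ A)
    (hres : ∀ a ∈ A, ∃ c : k, a - algebraMap k K c ∈ A.nonunits) :
    ∃ (O : ValuationSubring (laurentBaseChange K F₀)) (res : ↥O →+* laurentBaseChange k F₀),
      (∀ a : K, algebraMap K (laurentBaseChange K F₀) a ∈ O ↔ a ∈ A) ∧
      (∀ e : laurentBaseChange k F₀, ∃ h : baseIncl k K F₀ e ∈ O, res ⟨_, h⟩ = e) ∧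
      (∀ a : K, a ∈ A → ∀ c : k, a - algebraMap k K c ∈ A.nonunits →
        ∃ h : algebraMap K (laurentBaseChange K F₀) a ∈ O,
          res ⟨_, h⟩ = algebraMap k (laurentBaseChange k F₀) c) ∧
      (∀ y : ↥O, res y = 0 ↔ (y : laurentBaseChange K F₀) ∈ O.nonunits) ∧
      (∀ f : laurentBaseChange K F₀, f ≠ 0 → ∃ c : K, c ≠ 0 ∧
        algebraMap K (laurentBaseChange K F₀) c * f ∈ O ∧
        (algebraMap K (laurentBaseChange K F₀) c * f)⁻¹ ∈ O) ∧
      (∀ (n : ℕ) (a : Fin n → K) (e : Fin n → laurentBaseChange k F₀), LinearIndependent k e →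
        ((∑ i, algebraMap K (laurentBaseChange K F₀) (a i) * baseIncl k K F₀ (e i)) ∈ O ↔
          ∀ i, a i ∈ A) ∧
        ((∑ i, algebraMap K (laurentBaseChange K F₀) (a i) * baseIncl k K F₀ (e i)) ∈ O.nonunits ↔
          ∀ i, a i ∈ A.nonunits)) ∧
      IntermediateField.adjoin K (Set.range (baseIncl k K F₀)) = ⊤ :=
  exists_gauss_const (baseIncl k K F₀) (baseMap k K F₀).toRingHom (baseMap_injective k K F₀)
    (fun ω => by
      obtain ⟨a, b, hb, hab⟩ := exists_mul_eq k K F₀ ω
      exact ⟨b, a, hb, hab⟩)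
    (baseMap_tmul k K F₀) A hk hres

end Laurent

end Fermat.Agent.S29.H19
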