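/-
Program A (S29 / S42), helper7's descent route, leaf (V) (helper19).

`K` algebraically closed, `L ⊇ K` a field algebraic over `K(t)` with `t` transcendental over `K`.
Then `L` carries a valuation subring `A ⊇ K` with `t ∈ 𝔪_A`, residue field `K`, and of rank one
in the form `harch` used by the abstract Theorem T of Program J
(`∀ a c, a ∈ A.nonunits → c ≠ 0 → ∃ n, a ^ n * c⁻¹ ∈ A`).  Mathlib only.
-/
import Mathlib

set_option autoImplicit false

open Polynomial

noncomputable section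

namespace Fermat.Agent.S29.H19

section Basic

variable {K L : Type*} [Field K] [Field L] [Algebra K L]

/-- Nonzero constants have valuation one. -/
theorem val_algebraMap_eq_one (A : ValuationSubring L) (hK : ∀ c : K, algebraMap K L c ∈ A)
    (c : K) (hc : c ≠ 0) : A.valuation (algebraMap K L c) = 1 := by
  have h1 : A.valuation (algebraMap K L c) ≤ 1 := (A.valuation_le_one_iff _).mpr (hK c)
  have h2 : A.valuation (algebraMap K L c⁻¹) ≤ 1 := (A.valuation_le_one_iff _).mpr (hK c⁻¹)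
  have h3 : A.valuation (algebraMap K L c) * A.valuation (algebraMap K L c⁻¹) = 1 := by
    rw [← map_mul, ← map_mul, mul_inv_cancel₀ hc, map_one, map_one]
  by_contra hne
  have hlt : A.valuation (algebraMap K L c) < 1 := lt_of_le_of_ne h1 hne
  have h4 : A.valuation (algebraMap K L c) * A.valuation (algebraMap K L c⁻¹) < 1 :=
    mul_lt_one_of_lt_of_le hlt h2
  rw [h3] at h4
  exact lt_irrefl _ h4

/-- Polynomial expressions in an element of `A` with constant coefficients lie in `A`. -/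
theorem aeval_mem_of_mem (A : ValuationSubring L) (hK : ∀ c : K, algebraMap K L c ∈ A)
    (t : L) (ht : t ∈ A) (p : K[X]) : aeval t p ∈ A := by
  rw [aeval_eq_sum_range]
  refine sum_mem fun i _ => ?_
  rw [Algebra.smul_def]
  exact mul_mem (hK _) (pow_mem ht i)

/-- A polynomial with nonzero constant term takes a unit value at an element of `𝔪_A`. -/
theorem val_aeval_eq_one (A : ValuationSubring L) (hK : ∀ c : K, algebraMap K L c ∈ A)
    (t : L) (ht : t ∈ A.nonunits) (r : K[X]) (hr : r.coeff 0 ≠ 0) :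
    A.valuation (aeval t r) = 1 := by
  have htA : t ∈ A := A.nonunits_subset ht
  have h1 : aeval t r = aeval t r.divX * t + algebraMap K L (r.coeff 0) := by
    conv_lhs => rw [← divX_mul_X_add r]
    simp
  have h2 : A.valuation (aeval t r.divX * t) < 1 := by
    rw [map_mul, mul_comm]
    exact mul_lt_one_of_lt_of_le (A.mem_nonunits_iff.mp ht)
      ((A.valuation_le_one_iff _).mpr (aeval_mem_of_mem A hK t htA _))
  have h3 := val_algebraMap_eq_one A hK _ hr
  rw [h1, Valuation.map_add_eq_of_lt_right _ (by rw [h3]; exact h2), h3]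

/-- The valuation of `p(t)`, `t ∈ 𝔪_A`, is `v(t) ^ ord_0 p`. -/
theorem val_aeval_eq_pow (A : ValuationSubring L) (hK : ∀ c : K, algebraMap K L c ∈ A)
    (t : L) (ht : t ∈ A.nonunits) (p : K[X]) (hp : p ≠ 0) :
    A.valuation (aeval t p) = A.valuation t ^ rootMultiplicity 0 p := by
  obtain ⟨q, hq, hnd⟩ := exists_eq_pow_rootMultiplicity_mul_and_not_dvd p hp 0
  rw [C_0, sub_zero] at hq hnd
  have hq0 : q.coeff 0 ≠ 0 := fun h => hnd (X_dvd_iff.mpr h)
  conv_lhs => rw [hq]
  rw [map_mul, map_pow, aeval_X, map_mul, map_pow, val_aeval_eq_one A hK t ht q hq0, mul_one]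

/-- If `aeval y g ∈ 𝔪_A` for a nonzero `g` over the algebraically closed field of constants,
then `y` is congruent to a constant. -/
theorem exists_sub_mem_nonunits_of_aeval [IsAlgClosed K] (A : ValuationSubring L)
    (hK : ∀ c : K, algebraMap K L c ∈ A) (y : L) (hy : y ∈ A) :
    ∀ (n : ℕ) (g : K[X]), g.natDegree = n → g ≠ 0 → aeval y g ∈ A.nonunits →
      ∃ c : K, y - algebraMap K L c ∈ A.nonunits := by
  intro n
  induction n with
  | zero =>
    intro g hdeg hg0 hg
    exfalso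
    rw [natDegree_eq_zero] at hdeg
    obtain ⟨c, rfl⟩ := hdeg
    have hc : c ≠ 0 := fun h => hg0 (by rw [h, C_0])
    rw [aeval_C, A.mem_nonunits_iff, val_algebraMap_eq_one A hK c hc] at hg
    exact lt_irrefl _ hg
  | succ n ih =>
    intro g hdeg hg0 hg
    have hdeg' : g.degree ≠ 0 := by
      rw [degree_eq_natDegree hg0, hdeg]
      exact_mod_cast Nat.succ_ne_zero n
    obtain ⟨a, ha⟩ := IsAlgClosed.exists_root g hdeg'
    obtain ⟨g', rfl⟩ := dvd_iff_isRoot.mpr ha
    have hg'0 : g' ≠ 0 := fun h => hg0 (by rw [h, mul_zero])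
    have hdeg2 : g'.natDegree = n := by
      rw [natDegree_mul (X_sub_C_ne_zero a) hg'0, natDegree_X_sub_C] at hdeg
      omega
    rw [map_mul, aeval_sub, aeval_X, aeval_C, A.mem_nonunits_iff, map_mul] at hg
    by_cases h1 : A.valuation (y - algebraMap K L a) < 1
    · exact ⟨a, A.mem_nonunits_iff.mpr h1⟩
    · have h2 : A.valuation (y - algebraMap K L a) = 1 :=
        le_antisymm ((A.valuation_le_one_iff _).mpr (sub_mem hy (hK a))) (not_lt.mp h1)
      rw [h2, one_mul] at hg
      exact ih g' hdeg2 hg'0 (A.mem_nonunits_iff.mpr hg)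

end Basic

section Rel

variable {K L : Type*} [Field K] [Field L] [Algebra K L]

/-- An element algebraic over `K(t)` satisfies a nontrivial polynomial relation with coefficients
in `K[t]`. -/
theorem exists_rel_of_isAlgebraic (t y : L)
    (hy : IsAlgebraic (IntermediateField.adjoin K {t}) y) :
    ∃ (n : ℕ) (p : ℕ → K[X]), (∃ i ∈ Finset.range (n + 1), p i ≠ 0) ∧
      ∑ i ∈ Finset.range (n + 1), aeval t (p i) * y ^ i = 0 := by
  obtain ⟨Q, hQ0, hQ⟩ := IntermediateField.isAlgebraic_adjoin_iff.mp hy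
  have hmem : ∀ i, ∃ q : K[X], aeval t q = ((Q.coeff i : Algebra.adjoin K {t}) : L) := by
    intro i
    have key : ∀ z : L, z ∈ Algebra.adjoin K {t} → z ∈ (aeval t : K[X] →ₐ[K] L).range := by
      intro z hz
      rwa [Algebra.adjoin_singleton_eq_range_aeval] at hz
    exact key _ (Q.coeff i).2
  choose p hp using hmem
  refine ⟨Q.natDegree, p, ⟨Q.natDegree, Finset.mem_range.mpr (Nat.lt_succ_self _), ?_⟩, ?_⟩
  · intro h0
    have h1 := hp Q.natDegree
    rw [h0, map_zero] at h1
    have h2 : Q.coeff Q.natDegree = 0 := Subtype.ext h1.symm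
    exact hQ0 (leadingCoeff_eq_zero.mp h2)
  · rw [aeval_eq_sum_range] at hQ
    rw [← hQ]
    refine Finset.sum_congr rfl fun i _ => ?_
    rw [hp i, Subalgebra.smul_def, smul_eq_mul]

end Rel

section Order

variable {Γ : Type*} [LinearOrderedCommGroupWithZero Γ]

/-- Comparing two monomials `τ ^ a * β ^ i = τ ^ c * β ^ j`, `i < j`, `τ, β < 1`. -/
theorem pow_eq_pow_of_monomial_eq (τ β : Γ) (hτ0 : τ ≠ 0) (hτ : τ < 1) (hβ0 : β ≠ 0) (hβ : β < 1)
    (a i c j : ℕ) (hij : i < j) (h : τ ^ a * β ^ i = τ ^ c * β ^ j) :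
    ∃ m k : ℕ, 0 < m ∧ 0 < k ∧ β ^ m = τ ^ k := by
  have hj : j = (j - i) + i := by omega
  rw [hj, pow_add, ← mul_assoc] at h
  have h1 : τ ^ a = τ ^ c * β ^ (j - i) := mul_right_cancel₀ (pow_ne_zero i hβ0) h
  have h2 : β ^ (j - i) < 1 := pow_lt_one₀ zero_le hβ (by omega)
  have h3 : τ ^ a < τ ^ c := by
    rw [h1]
    exact mul_lt_of_lt_one_right (zero_lt_iff.mpr (pow_ne_zero c hτ0)) h2
  have h4 : c < a := by
    by_contra hcon
    exact absurd (pow_le_pow_right_of_le_one' hτ.le (not_lt.mp hcon)) (not_le.mpr h3)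
  have ha : a = c + (a - c) := by omega
  rw [ha, pow_add] at h1
  exact ⟨j - i, a - c, by omega, by omega, (mul_left_cancel₀ (pow_ne_zero c hτ0) h1).symm⟩

end Order

section Main

variable {K L : Type*} [Field K] [Field L] [Algebra K L]

/-- Residue field `K`: an element of `A` algebraic over `K(t)`, `t ∈ 𝔪_A`, is congruent to a
constant. -/
theorem exists_const_sub_mem_nonunits [IsAlgClosed K] (A : ValuationSubring L)
    (hK : ∀ c : K, algebraMap K L c ∈ A) (t : L) (ht : t ∈ A.nonunits) (ht0 : t ≠ 0)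
    (y : L) (hy : y ∈ A) (hyalg : IsAlgebraic (IntermediateField.adjoin K {t}) y) :
    ∃ c : K, y - algebraMap K L c ∈ A.nonunits := by
  classical
  have htA : t ∈ A := A.nonunits_subset ht
  obtain ⟨n, p, ⟨i₁, hi₁, hpi₁⟩, hsum⟩ := exists_rel_of_isAlgebraic t y hyalg
  -- normalise: divide by the largest common power of `X`
  set s' := (Finset.range (n + 1)).filter (fun i => p i ≠ 0) with hs'
  have hne : s'.Nonempty := ⟨i₁, Finset.mem_filter.mpr ⟨hi₁, hpi₁⟩⟩
  obtain ⟨i₀, hi₀, hmin⟩ := Finset.exists_min_image s' (fun i => rootMultiplicity 0 (p i)) hne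
  set k₀ := rootMultiplicity 0 (p i₀) with hk₀
  have hdvd : ∀ i ∈ Finset.range (n + 1), X ^ k₀ ∣ p i := by
    intro i hi
    by_cases hpi : p i = 0
    · rw [hpi]; exact dvd_zero _
    · have h1 : k₀ ≤ rootMultiplicity 0 (p i) := hmin i (Finset.mem_filter.mpr ⟨hi, hpi⟩)
      have h2 := (le_rootMultiplicity_iff hpi (a := 0)).mp h1
      rwa [C_0, sub_zero] at h2
  let q : ℕ → K[X] := fun i => if h : X ^ k₀ ∣ p i then Classical.choose h else 0
  have hq : ∀ i ∈ Finset.range (n + 1), p i = X ^ k₀ * q i := by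
    intro i hi
    simp only [q, dif_pos (hdvd i hi)]
    exact Classical.choose_spec (hdvd i hi)
  have hi₀r : i₀ ∈ Finset.range (n + 1) := (Finset.mem_filter.mp hi₀).1
  have hpi₀ : p i₀ ≠ 0 := (Finset.mem_filter.mp hi₀).2
  have hq₀ : (q i₀).coeff 0 ≠ 0 := by
    obtain ⟨r, hr, hnd⟩ := exists_eq_pow_rootMultiplicity_mul_and_not_dvd (p i₀) hpi₀ 0
    rw [C_0, sub_zero] at hr hnd
    have h1 : X ^ k₀ * q i₀ = X ^ k₀ * r := by rw [← hq i₀ hi₀r, ← hr]
    have h2 : q i₀ = r := mul_left_cancel₀ (pow_ne_zero _ X_ne_zero) h1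
    rw [h2]
    exact fun h => hnd (X_dvd_iff.mpr h)
  -- the normalised relation
  have hsum' : ∑ i ∈ Finset.range (n + 1), aeval t (q i) * y ^ i = 0 := by
    have h1 : ∑ i ∈ Finset.range (n + 1), aeval t (p i) * y ^ i =
        t ^ k₀ * ∑ i ∈ Finset.range (n + 1), aeval t (q i) * y ^ i := by
      rw [Finset.mul_sum]
      refine Finset.sum_congr rfl fun i hi => ?_
      rw [hq i hi, map_mul, map_pow, aeval_X, mul_assoc]
    rw [h1] at hsum
    exact (mul_eq_zero.mp hsum).resolve_left (pow_ne_zero _ ht0)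
  -- reduce modulo `𝔪_A`
  set g : K[X] := ∑ i ∈ Finset.range (n + 1), C ((q i).coeff 0) * X ^ i with hg
  have hgcoeff : g.coeff i₀ = (q i₀).coeff 0 := by
    rw [hg, finsetSum_coeff]
    rw [Finset.sum_eq_single i₀]
    · rw [coeff_C_mul, coeff_X_pow, if_pos rfl, mul_one]
    · intro i _ hi
      rw [coeff_C_mul, coeff_X_pow, if_neg (Ne.symm hi), mul_zero]
    · intro h; exact absurd hi₀r h
  have hg0 : g ≠ 0 := by
    intro h
    rw [h, coeff_zero] at hgcoeff
    exact hq₀ hgcoeff.symm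
  have hgval : aeval y g = - (t * ∑ i ∈ Finset.range (n + 1), aeval t (q i).divX * y ^ i) := by
    have h1 : aeval y g = ∑ i ∈ Finset.range (n + 1), algebraMap K L ((q i).coeff 0) * y ^ i := by
      rw [hg, map_sum]
      refine Finset.sum_congr rfl fun i _ => ?_
      rw [map_mul, aeval_C, map_pow, aeval_X]
    have h2 : ∀ i, aeval t (q i) = aeval t (q i).divX * t + algebraMap K L ((q i).coeff 0) := by
      intro i
      conv_lhs => rw [← divX_mul_X_add (q i)]
      simp
    have h3 : (∑ i ∈ Finset.range (n + 1), algebraMap K L ((q i).coeff 0) * y ^ i) +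
        t * ∑ i ∈ Finset.range (n + 1), aeval t (q i).divX * y ^ i = 0 := by
      rw [← hsum', Finset.mul_sum, ← Finset.sum_add_distrib]
      refine Finset.sum_congr rfl fun i _ => ?_
      rw [h2 i]
      ring
    rw [h1]
    exact eq_neg_of_add_eq_zero_left h3
  have hgm : aeval y g ∈ A.nonunits := by
    rw [hgval, A.mem_nonunits_iff, Valuation.map_neg, map_mul]
    refine mul_lt_one_of_lt_of_le (A.mem_nonunits_iff.mp ht) ((A.valuation_le_one_iff _).mpr ?_)
    exact sum_mem fun i _ => mul_mem (aeval_mem_of_mem A hK t htA _) (pow_mem hy i)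
  exact exists_sub_mem_nonunits_of_aeval A hK y hy g.natDegree g rfl hg0 hgm

/-- Every nonzero element of `𝔪_A` algebraic over `K(t)` is commensurable with `t`. -/
theorem exists_pow_val_eq (A : ValuationSubring L) (hK : ∀ c : K, algebraMap K L c ∈ A)
    (t : L) (ht : t ∈ A.nonunits) (htr : Transcendental K t)
    (b : L) (hb0 : b ≠ 0) (hb : b ∈ A.nonunits)
    (hbalg : IsAlgebraic (IntermediateField.adjoin K {t}) b) :
    ∃ m k : ℕ, 0 < m ∧ 0 < k ∧ A.valuation b ^ m = A.valuation t ^ k := by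
  classical
  have ht0 : t ≠ 0 := fun h => htr (h ▸ isAlgebraic_zero)
  have hinj : Function.Injective (aeval t : K[X] →ₐ[K] L) := transcendental_iff_injective.mp htr
  obtain ⟨n, p, ⟨i₁, hi₁, hpi₁⟩, hsum⟩ := exists_rel_of_isAlgebraic t b hbalg
  set s' := (Finset.range (n + 1)).filter (fun i => p i ≠ 0) with hs'
  have hne : s'.Nonempty := ⟨i₁, Finset.mem_filter.mpr ⟨hi₁, hpi₁⟩⟩
  have hsum' : ∑ i ∈ s', aeval t (p i) * b ^ i = 0 := by
    rw [← hsum, hs']
    refine Finset.sum_filter_of_ne fun i _ hi => ?_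
    intro h0
    rw [h0, map_zero, zero_mul] at hi
    exact hi rfl
  have hval : ∀ i ∈ s', A.valuation (aeval t (p i) * b ^ i) =
      A.valuation t ^ rootMultiplicity 0 (p i) * A.valuation b ^ i := by
    intro i hi
    rw [map_mul, map_pow, val_aeval_eq_pow A hK t ht (p i) (Finset.mem_filter.mp hi).2]
  have hτ0 : A.valuation t ≠ 0 := (Valuation.ne_zero_iff _).mpr ht0
  have hβ0 : A.valuation b ≠ 0 := (Valuation.ne_zero_iff _).mpr hb0
  have hτ : A.valuation t < 1 := A.mem_nonunits_iff.mp ht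
  have hβ : A.valuation b < 1 := A.mem_nonunits_iff.mp hb
  obtain ⟨j, hj, hmax⟩ := Finset.exists_max_image s'
    (fun i => A.valuation (aeval t (p i) * b ^ i)) hne
  have hex : ∃ i ∈ s', i ≠ j ∧
      A.valuation (aeval t (p i) * b ^ i) = A.valuation (aeval t (p j) * b ^ j) := by
    by_contra hcon
    have hlt : ∀ i ∈ s' \ {j}, A.valuation (aeval t (p i) * b ^ i) <
        A.valuation (aeval t (p j) * b ^ j) := by
      intro i hi
      rw [Finset.mem_sdiff, Finset.mem_singleton] at hi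
      exact lt_of_le_of_ne (hmax i hi.1) fun h => hcon ⟨i, hi.1, hi.2, h⟩
    have h1 := Valuation.map_sum_eq_of_lt A.valuation hj hlt
    rw [hsum', map_zero] at h1
    have h2 := hval j hj
    rw [← h1] at h2
    exact mul_ne_zero (pow_ne_zero _ hτ0) (pow_ne_zero _ hβ0) h2.symm
  obtain ⟨i, hi, hij, heq⟩ := hex
  rw [hval i hi, hval j hj] at heq
  rcases lt_or_gt_of_ne hij with h | h
  · exact pow_eq_pow_of_monomial_eq _ _ hτ0 hτ hβ0 hβ _ _ _ _ h heq
  · exact pow_eq_pow_of_monomial_eq _ _ hτ0 hτ hβ0 hβ _ _ _ _ h heq.symm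

/-- Rank one (`harch`). -/
theorem harch_of_commensurable (A : ValuationSubring L) (t : L) (ht : t ∈ A.nonunits)
    (hcomm : ∀ b : L, b ≠ 0 → b ∈ A.nonunits →
      ∃ m k : ℕ, 0 < m ∧ 0 < k ∧ A.valuation b ^ m = A.valuation t ^ k) :
    ∀ a c : L, a ∈ A.nonunits → c ≠ 0 → ∃ n : ℕ, a ^ n * c⁻¹ ∈ A := by
  intro a c ha hc
  by_cases ha0 : a = 0
  · exact ⟨1, by rw [ha0, pow_one, zero_mul]; exact zero_mem _⟩
  by_cases hc1 : A.valuation c < 1
  · obtain ⟨m, k, hm, hk, h1⟩ := hcomm a ha0 ha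
    obtain ⟨m', k', hm', hk', h2⟩ := hcomm c hc (A.mem_nonunits_iff.mpr hc1)
    have hτ : A.valuation t ≤ 1 := (A.mem_nonunits_iff.mp ht).le
    have hc0 : A.valuation c ≠ 0 := (Valuation.ne_zero_iff _).mpr hc
    refine ⟨k' * m, ?_⟩
    rw [← A.valuation_le_one_iff, map_mul, map_pow, map_inv₀]
    have key : A.valuation a ^ (k' * m) ≤ A.valuation c := by
      refine (pow_le_pow_iff_left₀ zero_le zero_le hm'.ne').mp ?_
      rw [h2, ← pow_mul, show k' * m * m' = m * (k' * m') by ring, pow_mul, h1, ← pow_mul]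
      refine pow_le_pow_right_of_le_one' hτ ?_
      nlinarith [Nat.mul_le_mul hk hm']
    calc A.valuation a ^ (k' * m) * (A.valuation c)⁻¹
        ≤ A.valuation c * (A.valuation c)⁻¹ := mul_le_mul_left key _
      _ = 1 := mul_inv_cancel₀ hc0
  · refine ⟨0, ?_⟩
    rw [pow_zero, one_mul, ← A.valuation_le_one_iff, map_inv₀]
    exact inv_le_one_of_one_le₀ (not_lt.mp hc1)

/-- **Leaf (V)**.  `K` algebraically closed, `L` algebraic over `K(t)`, `t` transcendental over
`K`: there is a valuation subring `A` of `L` containing `K`, with `t ∈ 𝔪_A`, residue field `K`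
and of rank one (`harch`). -/
theorem exists_valuationSubring_transc [IsAlgClosed K]
    (t : L) (ht : Transcendental K t)
    (halg : ∀ y : L, IsAlgebraic (IntermediateField.adjoin K {t}) y) :
    ∃ A : ValuationSubring L, (∀ c : K, algebraMap K L c ∈ A) ∧ t ∈ A.nonunits ∧
      (∀ y ∈ A, ∃ c : K, y - algebraMap K L c ∈ A.nonunits) ∧
      (∀ a c : L, a ∈ A.nonunits → c ≠ 0 → ∃ n : ℕ, a ^ n * c⁻¹ ∈ A) := by
  have ht0 : t ≠ 0 := fun h => ht (h ▸ isAlgebraic_zero)
  have hinj : Function.Injective (aeval t : K[X] →ₐ[K] L) := transcendental_iff_injective.mp ht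
  -- the subring `K[t]` and its ideal `(t)`
  let A₀ : Subring L := (aeval t : K[X] →ₐ[K] L).range.toSubring
  have htA₀ : t ∈ A₀ := ⟨X, aeval_X t⟩
  have hI : Ideal.span {(⟨t, htA₀⟩ : A₀)} ≠ ⊤ := by
    intro h
    have h1 : (1 : A₀) ∈ Ideal.span {(⟨t, htA₀⟩ : A₀)} := by rw [h]; trivial
    obtain ⟨⟨r, P, rfl⟩, hr⟩ := Ideal.mem_span_singleton'.mp h1
    have h2 : aeval t (P * X) = aeval t (1 : K[X]) := by
      have := congrArg (fun z : A₀ => (z : L)) hr
      simpa using this
    have h3 := congrArg (fun f : K[X] => f.coeff 0) (hinj h2)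
    simp at h3
  obtain ⟨B, hAB, hIB⟩ := Ideal.image_subset_nonunits_valuationSubring _ hI
  have hK : ∀ c : K, algebraMap K L c ∈ B := fun c => hAB ⟨C c, aeval_C t c⟩
  have htB : t ∈ B.nonunits :=
    hIB ⟨⟨t, htA₀⟩, Ideal.subset_span (Set.mem_singleton _), rfl⟩
  refine ⟨B, hK, htB, fun y hy => exists_const_sub_mem_nonunits B hK t htB ht0 y hy (halg y), ?_⟩
  exact harch_of_commensurable B t htB fun b hb0 hb =>
    exists_pow_val_eq B hK t htB ht b hb0 hb (halg b)

end Main

end Fermat.Agent.S29.H19
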